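/-
S37 / node_pull (helper388, squad S28/S28): the interface `Core.PullData N (N * a) ℓ` of piece [PULL],
in the EXACT shape of `Board.node_pull` (origin/helper37 `Core/Skeleton3.lean`):

  theorem node_pull (N a ℓ : ℕ) [NeZero N] [NeZero a] [NeZero ℓ] (hℓ : ℓ.Prime)
      (ha : (ℓ = 3 ∧ a = 2) ∨ (ℓ = 2 ∧ a = 3)) (haN : ¬ a ∣ N) (hℓN : ¬ ℓ ∣ N) :
      Nonempty (PullData N (N * a) ℓ)

Pure assembly: helper818's level transfer (`S37/H818/Transfer.lean`, abstract + modular part)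
with its hypothesis structure `TransferInputs` discharged from the landed libraries
`Lib/FF398` (Hecke inputs, norm formula) and `S37/H818/ModularNorm` (degree `a + 1`).
Also the general version `pullData_of_pow` for any prime `a ∤ N` with `a + 1` a power of `ℓ`.
-/
import Fermat.Agent.S37.Core.AssemblePull
import Fermat.Agent.S37.H818.Transfer
import Fermat.Agent.Lib.FF398.Hecke

set_option autoImplicit false
set_option synthInstance.maxHeartbeats 400000

noncomputable section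

namespace Fermat.Agent.S37.H388

open AlgebraicCurve ModularCurve Fermat.Agent.S37.Core

/-- The hypotheses of helper818's level transfer hold for every prime `a ∤ N` whose degree
`a + 1 = [F_{Na} : F_N]` is a power of the Hecke prime `ℓ ≠ a`, `ℓ ∤ N`. -/
theorem transferInputs (N a ℓ : ℕ) [NeZero N] [NeZero a] [NeZero ℓ] (hℓ : ℓ.Prime)
    (ha : a.Prime) (hℓN : ¬ ℓ ∣ N) (hℓa : ¬ ℓ ∣ a) (haN : ¬ a ∣ N)
    (hpow : ∃ e : ℕ, a + 1 = ℓ ^ e) : H818.TransferInputs N a ℓ where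
  hℓ := hℓ
  hk := ha
  hℓN := hℓN
  hℓk := hℓa
  heckeN := Fermat.Agent.Lib.FF398.heckeInputsAlong N ℓ
  heckeM := Fermat.Agent.Lib.FF398.heckeInputsAlong (N * a) ℓ
  normFormula := by
    obtain ⟨_, _, _, hfin, _, hN⟩ := Fermat.Agent.Lib.FF398.heckeInputsAlong N a
    exact hN
  deg_pow := by
    obtain ⟨e, he⟩ := hpow
    exact ⟨e, by rw [H818.finrankAlong_heckeAlphaBar N a ha haN, he]⟩

/-- **[PULL], general form**: pullback of divisor classes along `F_N ⊆ F_{Na}`. -/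
def pullData_of_pow (N a ℓ : ℕ) [NeZero N] [NeZero a] [NeZero ℓ] (hℓ : ℓ.Prime)
    (ha : a.Prime) (hℓN : ¬ ℓ ∣ N) (hℓa : ¬ ℓ ∣ a) (haN : ¬ a ∣ N)
    (hpow : ∃ e : ℕ, a + 1 = ℓ ^ e) : PullData N (N * a) ℓ :=
  have T := transferInputs N a ℓ hℓ ha hℓN hℓa haN hpow
  { pull := T.pullback
    galois := fun σ x => T.pullback_galois σ x
    inj_torsion := fun m hm x hmx hx =>
      T.pullback_injective_of_coprime m
        ((Nat.coprime_comm).mp ((Nat.Prime.coprime_iff_not_dvd hℓ).mpr hm)) x hmx hx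
    hecke := fun x => T.pullback_hecke x }

/-- **NODE [PULL]**, exact statement of `Board.node_pull`. -/
theorem node_pull (N a ℓ : ℕ) [NeZero N] [NeZero a] [NeZero ℓ] (hℓ : ℓ.Prime)
    (ha : (ℓ = 3 ∧ a = 2) ∨ (ℓ = 2 ∧ a = 3)) (haN : ¬ a ∣ N) (hℓN : ¬ ℓ ∣ N) :
    Nonempty (PullData N (N * a) ℓ) := by
  rcases ha with ⟨rfl, rfl⟩ | ⟨rfl, rfl⟩
  · exact ⟨pullData_of_pow N 2 3 hℓ (by norm_num) hℓN (by norm_num) haN ⟨1, by norm_num⟩⟩
  · exact ⟨pullData_of_pow N 3 2 hℓ (by norm_num) hℓN (by norm_num) haN ⟨2, by norm_num⟩⟩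

end Fermat.Agent.S37.H388

end
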